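import Fermat.Agent.S35.G.H60.ToricSpec
import Fermat.Agent.A2.Mod.H708.Vinf

/-!
# S35, piece (G'), leaf TORIC, sub-leaf NOT-POW (helper146)

`notPow : H60.NotPowStatement A E M q w`: at level `M`, `j` is not a `q`-th power modulo `w`
in the Gauss valuation ring `V∞`.

Proof: if `a = U₁ / U₂` is Gauss-integral and `a ^ q - j = w · W₁ / W₂` (`U₂`, `W₂` primitive),
then `(U₁ ^ q - J · U₂ ^ q) · W₂ = w · W₁ · U₂ ^ q` for the integral series `J` of `j`; reducing
modulo `w` gives `red U₁ ^ q = red J · red U₂ ^ q` in `k((t))`.  The `t`-order of the right-hand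
side is `-1 + q · ord (red U₂)`, that of the left-hand side is a multiple of `q`
(`red J = t⁻¹ + ⋯`).  Only `2 ≤ q` is used.
-/

set_option autoImplicit false
set_option linter.style.haveILetI false
set_option linter.unusedSectionVars false
set_option synthInstance.maxHeartbeats 400000
set_option maxHeartbeats 1600000

noncomputable section

namespace Fermat.Agent.S35.G.H146

open ModularCurve AlgebraicCurve HahnSeries

/-- The order of a Laurent series over a field with a simple pole with residue coefficient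
pattern `t⁻¹ + ⋯`. -/
theorem order_eq_neg_one_h146 {k : Type*} [Field k] (z : LaurentSeries k)
    (h1 : z.coeff (-1) ≠ 0) (h2 : ∀ n : ℤ, n < -1 → z.coeff n = 0) : z.order = -1 := by
  have hz : z ≠ 0 := by
    intro h
    rw [h] at h1
    exact h1 rfl
  refine le_antisymm (HahnSeries.order_le_of_coeff_ne_zero h1) ?_
  by_contra hlt
  rw [not_le] at hlt
  exact (HahnSeries.coeff_order_eq_zero.not.mpr hz) (h2 _ hlt)

/-- In a domain of Laurent series: `x ^ q = z * y ^ q` with `ord z = -1`, `y ≠ 0` is impossible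
for `2 ≤ q`. -/
theorem pow_ne_mul_pow_h146 {k : Type*} [Field k] {q : ℕ} (hq : 2 ≤ q)
    (x y z : LaurentSeries k) (hy : y ≠ 0) (hz : z.order = -1) : x ^ q ≠ z * y ^ q := by
  intro h
  have hz0 : z ≠ 0 := by
    intro h0
    rw [h0, HahnSeries.order_zero] at hz
    exact absurd hz (by norm_num)
  have hyq : y ^ q ≠ 0 := pow_ne_zero _ hy
  have hx : x ≠ 0 := by
    intro h0
    rw [h0, zero_pow (by omega)] at h
    exact mul_ne_zero hz0 hyq h.symm
  have ho := congrArg HahnSeries.order h
  rw [HahnSeries.order_mul hz0 hyq, HahnSeries.order_pow, HahnSeries.order_pow, hz] at ho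
  simp only [nsmul_eq_mul] at ho
  have hdvd : (q : ℤ) ∣ 1 := by
    refine ⟨y.order - x.order, ?_⟩
    linarith
  have := Int.le_of_dvd one_pos hdvd
  omega

variable (A : ValuationSubring Qb) (E : IntermediateField ℚ Qb) (M q : ℕ) [NeZero M] [NeZero q]
  (w : A2.Mod.RE A E)

/-- **NOT-POW.** -/
theorem notPow : H60.NotPowStatement A E M q w := by
  intro hS VM hVM a ha hW
  have hq2 : 2 ≤ q := hS.q_prime.two_le
  have hw0 : (w : E) ≠ 0 := by
    intro h
    exact hS.unif.ne_zero (Subtype.ext h)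
  obtain ⟨U₁, U₂, hU₂, -, heU⟩ := (hVM a).1 ha
  obtain ⟨W₁, W₂, hW₂, -, heW⟩ := (hVM _).1 hW
  set J : LaurentSeries (A2.Mod.RE A E) :=
    A2.H708.castA (A2.Mod.RE A E) (A2.H708.jInt 1) with hJ
  have hj : ((A2.Mod.jE E M 1 (one_dvd _) : A2.Mod.FE E M) : LaurentSeries E)
      = A2.H708.incl (A2.Mod.RE A E) J := A2.Mod.H708.coe_jE_eq (P := A) (E := E) M 1 (one_dvd _)
  -- the coercion of the quotient by `w`
  have hcoe : (((a ^ q - A2.Mod.jE E M 1 (one_dvd _)) * (A2.Mod.cE A E M w)⁻¹ :
      A2.Mod.FE E M) : LaurentSeries E)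
      = ((a : LaurentSeries E) ^ q - A2.H708.incl (A2.Mod.RE A E) J)
          * (A2.H708.cst (w : E))⁻¹ := by
    rw [IntermediateField.coe_mul, IntermediateField.coe_inv, ← hj]
    rfl
  rw [hcoe] at heW
  have hcw : A2.H708.cst (w : E) ≠ 0 := A2.H708.cst_ne_zero hw0
  -- clear the denominators
  have key : A2.H708.incl (A2.Mod.RE A E) ((U₁ ^ q - J * U₂ ^ q) * W₂)
      = A2.H708.incl (A2.Mod.RE A E) (A2.H708.cstA (A2.Mod.RE A E) w * W₁ * U₂ ^ q) := by
    rw [map_mul, map_sub, map_pow, map_mul, map_pow, map_mul, map_mul, map_pow,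
      A2.H708.incl_cstA, ← heU, ← heW]
    field_simp
    ring
  have key2 := A2.H708.incl_injective (A2.Mod.RE A E) key
  have key3 := congrArg (A2.H708.red (A2.Mod.RE A E)) key2
  have hredw : A2.H708.red (A2.Mod.RE A E) (A2.H708.cstA (A2.Mod.RE A E) w) = 0 := by
    rw [A2.H708.red_cstA]
    have : IsLocalRing.residue (A2.Mod.RE A E) w = 0 := by
      rw [IsLocalRing.residue_eq_zero_iff]
      haveI := hS.dvr
      exact hS.unif.not_isUnit
    rw [this, HahnSeries.single_eq_zero]
  rw [map_mul, map_sub, map_pow, map_mul, map_pow, map_mul, map_mul, hredw, zero_mul, zero_mul]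
    at key3
  have key4 : A2.H708.red (A2.Mod.RE A E) U₁ ^ q
      = A2.H708.red (A2.Mod.RE A E) J * A2.H708.red (A2.Mod.RE A E) U₂ ^ q := by
    rcases mul_eq_zero.mp key3 with h | h
    · exact sub_eq_zero.mp h
    · exact absurd h hW₂
  -- the reduction of `J` is `t⁻¹ + ⋯`
  have hredJ : A2.H708.red (A2.Mod.RE A E) J
      = jqModC (IsLocalRing.ResidueField (A2.Mod.RE A E)) := by
    show coeffMap _ (coeffMap _ (jqNModC ℤ 1)) = _
    rw [coeffMap_jqNModC, coeffMap_jqNModC, jqNModC]
    ext n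
    have := qExpand_coeff_mul (jqModC (IsLocalRing.ResidueField (A2.Mod.RE A E))) (N := 1) n
    simpa using this
  have hord : (A2.H708.red (A2.Mod.RE A E) J).order = -1 := by
    rw [hredJ]
    refine order_eq_neg_one_h146 _ ?_ ?_
    · rw [coeff_jqModC_neg_one]
      exact one_ne_zero
    · intro n hn
      exact coeff_jqModC_of_lt _ hn
  exact pow_ne_mul_pow_h146 hq2 _ _ _ hU₂ hord key4

end Fermat.Agent.S35.G.H146

end
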